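import Fermat.Agent.S41.Deg
import Fermat.Agent.S41.PD.Defs
import Fermat.Agent.S41.PD.Prim
import Fermat.Agent.GAL.HK.Iota
import Fermat.Agent.GAL.HK.Bridge

/-!
# S41 / H1 : calculus of cusp primitives `IsQI`

`IsQI.add/neg/sub/smul/map/add_const/hom_unique/mono` are in `PD/Prim.lean`.
-/

set_option autoImplicit false
open CongruenceSubgroup Matrix ModularCurve.Period
open scoped MatrixGroups TensorProduct
open Fermat.Agent.GAL Fermat.Agent.GAL.HK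

namespace Fermat.Agent.S41

theorem IsQI.unique {R : Type*} [AddCommGroup R] {Γ : Subgroup SL(2, ℤ)}
    {φ ψ : Additive Γ →+ R} {k : V2 → R} (h : IsQI Γ φ k) (h' : IsQI Γ ψ k) : φ = ψ :=
  h.hom_unique h'

theorem exists_hom_of_qi {R : Type*} [AddCommGroup R] (Γ : Subgroup SL(2, ℤ)) (k : V2 → R)
    (hk : Homog k)
    (h : ∀ γ : Γ, ∃ c : R, ∀ v : V2, v ≠ 0 → k (sl (γ : SL(2, ℤ)) *ᵥ v) = k v + c) :
    ∃ φ : Additive Γ →+ R, IsQI Γ φ k := by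
  choose c hc using h
  have hadd : ∀ γ γ' : Γ, c (γ * γ') = c γ + c γ' := by
    intro γ γ'
    have h1 := hc (γ * γ') e₁ Prim.e₁_ne_zero
    have h2 : sl ((γ * γ' : Γ) : SL(2, ℤ)) *ᵥ e₁
        = sl (γ : SL(2, ℤ)) *ᵥ (sl (γ' : SL(2, ℤ)) *ᵥ e₁) := by
      rw [Subgroup.coe_mul, Prim.sl_mul, Matrix.mulVec_mulVec]
    rw [h2, hc γ _ (Prim.sl_mulVec_ne_zero _ Prim.e₁_ne_zero), hc γ' e₁ Prim.e₁_ne_zero,
      add_assoc] at h1
    have h3 := add_left_cancel h1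
    rw [← h3, add_comm]
  refine ⟨AddMonoidHom.mk' (fun γ => c (Additive.toMul γ)) (fun a b => hadd _ _), hk, ?_⟩
  intro γ v hv
  exact hc γ v hv

theorem IsQI.nsmul {R : Type*} [AddCommGroup R] {Γ : Subgroup SL(2, ℤ)}
    {φ : Additive Γ →+ R} {k : V2 → R} (h : IsQI Γ φ k) (n : ℕ) :
    IsQI Γ (n • φ) (fun v => n • k v) :=
  h.smul n

theorem IsQI.zsmul {R : Type*} [AddCommGroup R] {Γ : Subgroup SL(2, ℤ)}
    {φ : Additive Γ →+ R} {k : V2 → R} (h : IsQI Γ φ k) (n : ℤ) :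
    IsQI Γ (n • φ) (fun v => n • k v) :=
  h.smul n

theorem IsQI.resOne {R : Type*} [AddCommGroup R] {N : ℕ} (q : ℕ)
    {φ : Additive (Gamma0 N) →+ R} {k : V2 → R} (h : IsQI (Gamma0 N) φ k) :
    IsQI (Gamma0 (N * q)) (res₁ N q R φ) k :=
  h.mono (Gamma0_mul_le N q)

/-- `δ γ = (δ γ δ⁻¹) δ`. -/
theorem qiBasic_dl_mulVec (N q : ℕ) [NeZero q] (γ : Gamma0 (N * q)) (v : V2) :
    dl q *ᵥ (sl (γ : SL(2, ℤ)) *ᵥ v) = sl ((dconj N q γ : Gamma0 N) : SL(2, ℤ)) *ᵥ (dl q *ᵥ v) := by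
  obtain ⟨c, hc⟩ := q_dvd_of_mem N q γ
  have hq' : (q : ℤ) ≠ 0 := by exact_mod_cast NeZero.ne q
  have hcoe : (((dconj N q γ : Gamma0 N) : SL(2, ℤ)) : Matrix (Fin 2) (Fin 2) ℤ)
      = dconjMat q ((γ : SL(2, ℤ)) : Matrix (Fin 2) (Fin 2) ℤ) := rfl
  have h10 : (((γ : SL(2, ℤ)) : Matrix (Fin 2) (Fin 2) ℤ) 1 0 : ℤ) = q * c := hc
  funext i
  fin_cases i
  · simp [dl, sl, zq, hcoe, dconjMat, Matrix.mulVec, dotProduct, Fin.sum_univ_two]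
    ring
  · simp [dl, sl, zq, hcoe, dconjMat, Matrix.mulVec, dotProduct, Fin.sum_univ_two, h10,
      Int.mul_ediv_cancel_left _ hq']
    ring

theorem qiBasic_dl_mulVec_ne_zero (q : ℕ) [NeZero q] {v : V2} (hv : v ≠ 0) : dl q *ᵥ v ≠ 0 := by
  have hq' : (q : ℚ) ≠ 0 := by exact_mod_cast NeZero.ne q
  intro h
  apply hv
  have h0 := congrFun h 0
  have h1 := congrFun h 1
  simp [dl, Matrix.mulVec, dotProduct, Fin.sum_univ_two, hq'] at h0 h1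
  funext i
  fin_cases i
  · exact h0
  · exact h1

theorem IsQI.resTwo {R : Type*} [AddCommGroup R] {N : ℕ} (q : ℕ) [NeZero q]
    {φ : Additive (Gamma0 N) →+ R} {k : V2 → R} (h : IsQI (Gamma0 N) φ k) :
    IsQI (Gamma0 (N * q)) (res₂ N q R φ) (fun v => k (dl q *ᵥ v)) := by
  refine ⟨fun c v hc => ?_, fun γ v hv => ?_⟩
  · show k (dl q *ᵥ (c • v)) = k (dl q *ᵥ v)
    rw [Matrix.mulVec_smul, h.homog c _ hc]
  · show k (dl q *ᵥ (sl (γ : SL(2, ℤ)) *ᵥ v)) = k (dl q *ᵥ v) + _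
    rw [qiBasic_dl_mulVec, h.qi _ _ (qiBasic_dl_mulVec_ne_zero q hv), res₂_apply]

/-- a `Γ₀(N q)`-hom having a primitive which is quasi-invariant under all of `Γ₀(N)` is in the
image of `res₁`. -/
theorem IsQI.exists_resOne {R : Type*} [AddCommGroup R] {N : ℕ} (q : ℕ)
    {φ' : Additive (Gamma0 (N * q)) →+ R} {k : V2 → R} (h : IsQI (Gamma0 (N * q)) φ' k)
    (hk : ∀ γ : Gamma0 N, ∃ c : R, ∀ v : V2, v ≠ 0 → k (sl (γ : SL(2, ℤ)) *ᵥ v) = k v + c) :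
    ∃ φ : Additive (Gamma0 N) →+ R, IsParabolicHom (Gamma0 N) φ ∧ res₁ N q R φ = φ' := by
  obtain ⟨φ, hφ⟩ := exists_hom_of_qi (Gamma0 N) k h.homog hk
  exact ⟨φ, hφ.isParabolicHom, (hφ.resOne q).unique h⟩

end Fermat.Agent.S41
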