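import Fermat.Agent.S41.Deg
import Fermat.Agent.S41.PD.Defs
import Fermat.Agent.GAL.HK.Iota
import Fermat.Agent.GAL.HK.Bridge

/-!
# S41 / H2 : Hecke operators in terms of cusp primitives
-/

set_option autoImplicit false
open CongruenceSubgroup Matrix ModularCurve.Period
open scoped MatrixGroups TensorProduct
open Fermat.Agent.GAL Fermat.Agent.GAL.HK

namespace Fermat.Agent.S41

theorem qiHecke_zq_mul (A B : Matrix (Fin 2) (Fin 2) ℤ) : zq (A * B) = zq A * zq B :=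
  Matrix.map_mul (f := Int.castRingHom ℚ)

theorem qiHecke_det_zq (A : Matrix (Fin 2) (Fin 2) ℤ) : (zq A).det = (A.det : ℚ) := by
  simp [zq, Matrix.det_fin_two]

theorem qiHecke_mulVec_ne_zero {A : Matrix (Fin 2) (Fin 2) ℤ} (hA : A.det ≠ 0) {v : V2}
    (hv : v ≠ 0) : zq A *ᵥ v ≠ 0 := fun h =>
  hv (Matrix.eq_zero_of_mulVec_eq_zero (by rw [qiHecke_det_zq]; exact_mod_cast hA) h)

/-- the general statement for a Hecke datum with integral representatives. -/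
theorem IsQI.of_datum {R : Type*} [AddCommGroup R] {M : ℕ} (D : HeckeDatum (Gamma0 M))
    {J : Type*} [Fintype J] (e : J ≃ D.ι) (A : J → Matrix (Fin 2) (Fin 2) ℤ)
    (hdet : ∀ j, (A j).det ≠ 0)
    (hA : ∀ (γ : Gamma0 M) (j : J), A j * ((γ : SL(2, ℤ)) : Matrix (Fin 2) (Fin 2) ℤ) =
      (((D.coc γ (e j) : Gamma0 M) : SL(2, ℤ)) : Matrix (Fin 2) (Fin 2) ℤ) *
        A (e.symm (D.perm γ (e j))))
    {φ : Additive (Gamma0 M) →+ R} {k : V2 → R} (h : IsQI (Gamma0 M) φ k) :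
    IsQI (Gamma0 M) (D.T R φ) (fun v => ∑ j : J, k (zq (A j) *ᵥ v)) where
  homog := by
    intro c v hc
    refine Finset.sum_congr rfl fun j _ => ?_
    rw [Matrix.mulVec_smul, h.homog c _ hc]
  qi := by
    intro γ v hv
    have h1 : ∀ j : J, k (zq (A j) *ᵥ (sl (γ : SL(2, ℤ)) *ᵥ v)) =
        k (zq (A (e.symm (D.perm γ (e j)))) *ᵥ v) + φ (Additive.ofMul (D.coc γ (e j))) := by
      intro j
      rw [Matrix.mulVec_mulVec, sl, ← qiHecke_zq_mul, hA γ j, qiHecke_zq_mul, ← Matrix.mulVec_mulVec]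
      exact h.qi _ _ (qiHecke_mulVec_ne_zero (hdet _) hv)
    show ∑ j : J, k (zq (A j) *ᵥ (sl (γ : SL(2, ℤ)) *ᵥ v)) = _
    rw [Finset.sum_congr rfl fun j _ => h1 j, Finset.sum_add_distrib, HeckeDatum.T_apply]
    congr 1
    · exact Equiv.sum_comp ((e.trans (D.perm γ)).trans e.symm) (fun j => k (zq (A j) *ᵥ v))
    · exact Equiv.sum_comp e (fun x => φ (Additive.ofMul (D.coc γ x)))

theorem qiHecke_det_heckeRep {ℓ : ℕ} (hℓ : ℓ ≠ 0) (i : Option (Fin ℓ)) :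
    (heckeRep ℓ i).det ≠ 0 := by
  cases i with
  | none => simp [heckeRep, Matrix.det_fin_two, hℓ]
  | some b => simp [heckeRep, Matrix.det_fin_two, hℓ]

theorem IsQI.heckeT {R : Type*} [AddCommGroup R] (M : ℕ) {ℓ : ℕ} (hℓ : ℓ.Prime) (hℓM : ¬ ℓ ∣ M)
    {φ : Additive (Gamma0 M) →+ R} {k : V2 → R} (h : IsQI (Gamma0 M) φ k) :
    IsQI (Gamma0 M) (cohT M hℓ hℓM R φ)
      (fun v => ∑ i : Option (Fin ℓ), k (zq (heckeRep ℓ i) *ᵥ v)) :=
  IsQI.of_datum (datumT M hℓ hℓM) (idxT M hℓ hℓM) (heckeRep ℓ)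
    (qiHecke_det_heckeRep hℓ.ne_zero) (fun γ i => heckeRep_mul M hℓ hℓM γ i) h

/-- index translation `Fin r ≃ (datumU M hr hrM).ι` -/
noncomputable def qiHecke_idxU (M : ℕ) {r : ℕ} (hr : r.Prime) (hrM : r ∣ M) :
    Fin r ≃ (datumU M hr hrM).ι :=
  haveI : NeZero r := ⟨hr.ne_zero⟩
  (ZMod.finEquiv r).toEquiv.trans (datumU_equiv M hr hrM).symm

theorem qiHecke_repU_idxU (M : ℕ) {r : ℕ} (hr : r.Prime) (hrM : r ∣ M) (b : Fin r) :
    ((repU M hr hrM (qiHecke_idxU M hr hrM b) : GL (Fin 2) ℝ) : Matrix (Fin 2) (Fin 2) ℝ) =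
      (heckeRep r (some b)).map (Int.cast : ℤ → ℝ) := by
  have : NeZero r := ⟨hr.ne_zero⟩
  unfold repU qiHecke_idxU
  simp only [Equiv.trans_apply, Equiv.apply_symm_apply]
  change ((ModularForm.heckeMatrix r (ZMod.finEquiv r b).val : GL (Fin 2) ℝ) :
    Matrix (Fin 2) (Fin 2) ℝ) = _
  rw [ModularForm.val_heckeMatrix (NeZero.ne r), val_finEquiv]
  ext a c
  fin_cases a <;> fin_cases c <;> simp [heckeRep]

theorem qiHecke_heckeRep_mulU (M : ℕ) {r : ℕ} (hr : r.Prime) (hrM : r ∣ M) (γ : Gamma0 M)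
    (b : Fin r) :
    heckeRep r (some b) * ((γ : SL(2, ℤ)) : Matrix (Fin 2) (Fin 2) ℤ) =
      ((((datumU M hr hrM).coc γ (qiHecke_idxU M hr hrM b) : Gamma0 M) : SL(2, ℤ)) :
        Matrix (Fin 2) (Fin 2) ℤ) *
        heckeRep r (some ((qiHecke_idxU M hr hrM).symm
          ((datumU M hr hrM).perm γ (qiHecke_idxU M hr hrM b)))) := by
  have h := repU_mul M hr hrM γ (qiHecke_idxU M hr hrM b)
  rw [← Units.val_inj, Units.val_mul, Units.val_mul] at h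
  have h2 := qiHecke_repU_idxU M hr hrM ((qiHecke_idxU M hr hrM).symm
          ((datumU M hr hrM).perm γ (qiHecke_idxU M hr hrM b)))
  rw [Equiv.apply_symm_apply] at h2
  rw [qiHecke_repU_idxU, h2] at h
  have hmap : ∀ A B : Matrix (Fin 2) (Fin 2) ℤ,
      A.map (Int.cast : ℤ → ℝ) * B.map (Int.cast : ℤ → ℝ) = (A * B).map (Int.cast : ℤ → ℝ) :=
    fun A B => (Matrix.map_mul (f := Int.castRingHom ℝ)).symm
  have hc : ∀ δ : Gamma0 M, ((Matrix.SpecialLinearGroup.mapGL ℝ (δ : SL(2, ℤ)) : GL (Fin 2) ℝ) :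
      Matrix (Fin 2) (Fin 2) ℝ) =
      (((δ : SL(2, ℤ)) : Matrix (Fin 2) (Fin 2) ℤ)).map (Int.cast : ℤ → ℝ) := fun δ => coe_incl M δ
  rw [hc, hc, hmap, hmap] at h
  exact Matrix.map_injective Int.cast_injective h

theorem IsQI.heckeU {R : Type*} [AddCommGroup R] (M : ℕ) {r : ℕ} (hr : r.Prime) (hrM : r ∣ M)
    {φ : Additive (Gamma0 M) →+ R} {k : V2 → R} (h : IsQI (Gamma0 M) φ k) :
    IsQI (Gamma0 M) (cohU M hr hrM R φ)
      (fun v => ∑ b : Fin r, k (zq (heckeRep r (some b)) *ᵥ v)) :=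
  IsQI.of_datum (datumU M hr hrM) (qiHecke_idxU M hr hrM) (fun b => heckeRep r (some b))
    (fun b => qiHecke_det_heckeRep hr.ne_zero (some b))
    (fun γ b => qiHecke_heckeRep_mulU M hr hrM γ b) h

end Fermat.Agent.S41
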