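import Fermat.Agent.S41.QI.DegeneracyCore
import Fermat.Agent.S41.QI.Hecke

/-!
# S41 / H3 : degeneracy maps commute with Hecke operators; `U_q` on `q`-old forms
-/

set_option autoImplicit false
open CongruenceSubgroup Matrix ModularCurve.Period
open scoped MatrixGroups TensorProduct
open Fermat.Agent.GAL Fermat.Agent.GAL.HK

namespace Fermat.Agent.S41

section H3
variable (N q : ℕ) [NeZero N] [NeZero q] {A : Type*} [AddCommGroup A]

theorem cohT_res₁ {ℓ : ℕ} (hℓ : ℓ.Prime) (hℓN : ¬ ℓ ∣ N) (hℓM : ¬ ℓ ∣ N * q)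
    (φ : Additive (Gamma0 N) →+ A) (hφ : IsParabolicHom (Gamma0 N) φ) :
    cohT (N * q) hℓ hℓM A (res₁ N q A φ) = res₁ N q A (cohT N hℓ hℓN A φ) := by
  obtain ⟨k, hk⟩ := exists_isQI N φ hφ
  exact ((Deg_resOne q hk).heckeT (N * q) hℓ hℓM).hom_unique (Deg_resOne q (hk.heckeT N hℓ hℓN))

theorem cohT_res₂ {ℓ : ℕ} (hℓ : ℓ.Prime) (hℓN : ¬ ℓ ∣ N) (hℓM : ¬ ℓ ∣ N * q)
    (φ : Additive (Gamma0 N) →+ A) (hφ : IsParabolicHom (Gamma0 N) φ) :
    cohT (N * q) hℓ hℓM A (res₂ N q A φ) = res₂ N q A (cohT N hℓ hℓN A φ) := by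
  obtain ⟨k, hk⟩ := exists_isQI N φ hφ
  have hc : Nat.Coprime ℓ q :=
    (Nat.Prime.coprime_iff_not_dvd hℓ).2 fun h => hℓM (Dvd.dvd.mul_left h N)
  have h1 := (Deg_resTwo q hk).heckeT (N * q) hℓ hℓM
  have h2 := Deg_resTwo q (hk.heckeT N hℓ hℓN)
  have he : (fun v => ∑ i : Option (Fin ℓ), k (dl q *ᵥ (zq (heckeRep ℓ i) *ᵥ v))) =
      fun v => ∑ i : Option (Fin ℓ), k (zq (heckeRep ℓ i) *ᵥ (dl q *ᵥ v)) :=
    funext fun v => Deg_sum_option hk hℓ.pos hc v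
  rw [he] at h1
  exact h1.hom_unique h2

theorem cohU_res₁ {r : ℕ} (hr : r.Prime) (hrN : r ∣ N) (hrM : r ∣ N * q)
    (φ : Additive (Gamma0 N) →+ A) (hφ : IsParabolicHom (Gamma0 N) φ) :
    cohU (N * q) hr hrM A (res₁ N q A φ) = res₁ N q A (cohU N hr hrN A φ) := by
  obtain ⟨k, hk⟩ := exists_isQI N φ hφ
  exact ((Deg_resOne q hk).heckeU (N * q) hr hrM).hom_unique (Deg_resOne q (hk.heckeU N hr hrN))

theorem cohU_res₂ (hqN : Nat.Coprime q N) {r : ℕ} (hr : r.Prime) (hrN : r ∣ N) (hrM : r ∣ N * q)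
    (φ : Additive (Gamma0 N) →+ A) (hφ : IsParabolicHom (Gamma0 N) φ) :
    cohU (N * q) hr hrM A (res₂ N q A φ) = res₂ N q A (cohU N hr hrN A φ) := by
  obtain ⟨k, hk⟩ := exists_isQI N φ hφ
  have hc : Nat.Coprime r q := (Nat.Coprime.coprime_dvd_right hrN hqN).symm
  have h1 := (Deg_resTwo q hk).heckeU (N * q) hr hrM
  have h2 := Deg_resTwo q (hk.heckeU N hr hrN)
  have he : (fun v => ∑ b : Fin r, k (dl q *ᵥ (zq (heckeRep r (some b)) *ᵥ v))) =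
      fun v => ∑ b : Fin r, k (zq (heckeRep r (some b)) *ᵥ (dl q *ᵥ v)) :=
    funext fun v => Deg_sum_some hk hr.pos hc v
  rw [he] at h1
  exact h1.hom_unique h2

theorem cohU_q_res₁ (hq : q.Prime) (hqN : ¬ q ∣ N) (hqM : q ∣ N * q)
    (φ : Additive (Gamma0 N) →+ A) (hφ : IsParabolicHom (Gamma0 N) φ) :
    cohU (N * q) hq hqM A (res₁ N q A φ) = res₁ N q A (cohT N hq hqN A φ) - res₂ N q A φ := by
  obtain ⟨k, hk⟩ := exists_isQI N φ hφ
  have h1 := (Deg_resOne q hk).heckeU (N * q) hq hqM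
  have h2 := (Deg_resOne q (hk.heckeT N hq hqN)).sub (Deg_resTwo q hk)
  have he : (fun v => ∑ b : Fin q, k (zq (heckeRep q (some b)) *ᵥ v)) =
      fun v => (∑ i : Option (Fin q), k (zq (heckeRep q i) *ᵥ v)) - k (dl q *ᵥ v) :=
    funext fun v => Deg_sum_q_one k q v
  rw [he] at h1
  exact h1.hom_unique h2

theorem cohU_q_res₂ (hq : q.Prime) (hqM : q ∣ N * q)
    (φ : Additive (Gamma0 N) →+ A) (hφ : IsParabolicHom (Gamma0 N) φ) :
    cohU (N * q) hq hqM A (res₂ N q A φ) = q • res₁ N q A φ := by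
  obtain ⟨k, hk⟩ := exists_isQI N φ hφ
  have h1 := (Deg_resTwo q hk).heckeU (N * q) hq hqM
  have h2 := (Deg_resOne q hk).smul q
  have he : (fun v => ∑ b : Fin q, k (dl q *ᵥ (zq (heckeRep q (some b)) *ᵥ v))) =
      fun v => q • k v :=
    funext fun v => Deg_sum_q_two hk q v
  rw [he] at h1
  exact h1.hom_unique h2

end H3

end Fermat.Agent.S41
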