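import Fermat.Agent.S41.QI.ALMat
import Fermat.Agent.S41.QI.Basic
import Fermat.Agent.S41.QI.Degeneracy

/-!
# S41 / H4 : Atkin-Lehner: `(U_q² - 1) Lat (N q)` lies in the `q`-old sublattice
-/

set_option autoImplicit false
open CongruenceSubgroup Matrix ModularCurve.Period
open scoped MatrixGroups TensorProduct
open Fermat.Agent.GAL Fermat.Agent.GAL.HK

namespace Fermat.Agent.S41

namespace AL

variable {R : Type*} [AddCommGroup R] (N q : ℕ) {x y : ℤ} (hxy : (q : ℤ) * x - N * y = 1)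

include hxy in
/-- (a) `k' ∘ w` is again a cusp primitive. -/
theorem exists_W (hq0 : q ≠ 0) {φ' : Additive (Gamma0 (N * q)) →+ R} {k' : V2 → R}
    (h : IsQI (Gamma0 (N * q)) φ' k') :
    ∃ ψ : Additive (Gamma0 (N * q)) →+ R,
      IsQI (Gamma0 (N * q)) ψ (fun v => k' (zq (wMat N q x y) *ᵥ v)) := by
  refine exists_hom_of_qi _ _ ?_ ?_
  · intro c v hc
    show k' (zq (wMat N q x y) *ᵥ (c • v)) = k' (zq (wMat N q x y) *ᵥ v)
    rw [Matrix.mulVec_smul, h.homog c _ hc]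
  · intro γ
    obtain ⟨γ', hγ'⟩ := exists_conj N q hxy hq0 γ
    refine ⟨φ' (Additive.ofMul γ'), fun v hv => ?_⟩
    show k' (zq (wMat N q x y) *ᵥ (sl (γ : SL(2, ℤ)) *ᵥ v)) = k' (zq (wMat N q x y) *ᵥ v) + _
    have h1 : zq (wMat N q x y) * sl (γ : SL(2, ℤ)) = sl (γ' : SL(2, ℤ)) * zq (wMat N q x y) := by
      unfold sl
      rw [← Prim.zq_mul, ← Prim.zq_mul, hγ']
    rw [← h.qi γ' _ (zq_wMat_mulVec_ne_zero N q hxy hq0 hv), Matrix.mulVec_mulVec,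
      Matrix.mulVec_mulVec, h1]

include hxy in
/-- (b) CLAIM A. -/
theorem claimA (hq : q.Prime) (hqN : ¬ q ∣ N) {φ' : Additive (Gamma0 (N * q)) →+ R} {k' : V2 → R}
    (h : IsQI (Gamma0 (N * q)) φ' k') (γ : Gamma0 N) :
    ∃ c : R, ∀ v : V2, v ≠ 0 →
      (k' (sl (γ : SL(2, ℤ)) *ᵥ v) + ∑ b : Fin q,
        k' (zq (wMat N q x y) *ᵥ (zq (heckeRep q (some b)) *ᵥ (sl (γ : SL(2, ℤ)) *ᵥ v)))) =
      (k' v + ∑ b : Fin q, k' (zq (wMat N q x y) *ᵥ (zq (heckeRep q (some b)) *ᵥ v))) + c := by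
  have hq0 : (q : ℚ) ≠ 0 := by exact_mod_cast hq.ne_zero
  have key : ∀ v : V2,
      k' v + ∑ b : Fin q, k' (zq (wMat N q x y) *ᵥ (zq (heckeRep q (some b)) *ᵥ v)) =
        ∑ j : Option (Fin q), k' (sl (reps N q hxy j) *ᵥ v) := by
    intro v
    rw [Fintype.sum_option]
    congr 1
    · show k' v = k' (sl 1 *ᵥ v)
      rw [Prim.sl_one, Matrix.one_mulVec]
    · refine Finset.sum_congr rfl fun b _ => ?_
      have h1 : wMat N q x y * heckeRep q (some b) =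
          (q : ℤ) • ((gB N q hxy ((b : ℕ) : ℤ) : SL(2, ℤ)) : Matrix (Fin 2) (Fin 2) ℤ) :=
        wMat_mul_rep N q hxy _
      rw [Matrix.mulVec_mulVec, ← Prim.zq_mul, h1, zq_smul, Matrix.smul_mulVec]
      exact h.homog _ _ (by exact_mod_cast hq.ne_zero)
  obtain ⟨c, hc⟩ := qi_of_reps h (reps N q hxy) (γ : SL(2, ℤ))
    (fun j => reps_exists N q hxy hq hqN _ (mul_mem (reps_mem N q hxy j) γ.2))
    (reps_unique N q hxy hq hqN)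
  exact ⟨c, fun v hv => by rw [key, key]; exact hc v hv⟩

include hxy in
/-- (c) `k' ∘ w ∘ w` is a primitive of `φ'`. -/
theorem isQI_ww (hq0 : q ≠ 0) {φ' : Additive (Gamma0 (N * q)) →+ R} {k' : V2 → R}
    (h : IsQI (Gamma0 (N * q)) φ' k') :
    IsQI (Gamma0 (N * q)) φ'
      (fun v => k' (zq (wMat N q x y) *ᵥ (zq (wMat N q x y) *ᵥ v))) := by
  have hval : ∀ v : V2, v ≠ 0 → k' (zq (wMat N q x y) *ᵥ (zq (wMat N q x y) *ᵥ v)) =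
      k' v + φ' (Additive.ofMul ⟨gam0 N q hxy, gam0_mem N q hxy⟩) := by
    intro v hv
    rw [Matrix.mulVec_mulVec, ← Prim.zq_mul, wMat_sq N q hxy, zq_smul, Matrix.smul_mulVec,
      h.homog _ _ (by exact_mod_cast hq0)]
    exact h.qi ⟨gam0 N q hxy, gam0_mem N q hxy⟩ v hv
  refine ⟨fun c v hc => ?_, fun γ v hv => ?_⟩
  · show k' (zq (wMat N q x y) *ᵥ (zq (wMat N q x y) *ᵥ (c • v))) = _
    rw [Matrix.mulVec_smul, Matrix.mulVec_smul, h.homog c _ hc]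
  · show k' (zq (wMat N q x y) *ᵥ (zq (wMat N q x y) *ᵥ (sl (γ : SL(2, ℤ)) *ᵥ v))) =
      k' (zq (wMat N q x y) *ᵥ (zq (wMat N q x y) *ᵥ v)) + _
    rw [hval _ (Prim.sl_mulVec_ne_zero _ hv), hval v hv, h.qi γ v hv]
    abel

/-- (d) -/
theorem main_hom [NeZero N] [NeZero q] (hq : q.Prime) (hqN : ¬ q ∣ N) (hqM : q ∣ N * q)
    {φ' : Additive (Gamma0 (N * q)) →+ R} {k' : V2 → R} (h : IsQI (Gamma0 (N * q)) φ' k') :
    ∃ φ₁ φ₂ : Additive (Gamma0 N) →+ R,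
      IsParabolicHom (Gamma0 N) φ₁ ∧ IsParabolicHom (Gamma0 N) φ₂ ∧
      cohU (N * q) hq hqM R (cohU (N * q) hq hqM R φ') - φ' =
        res₁ N q R (cohT N hq hqN R φ₂) - res₂ N q R φ₂ - res₁ N q R φ₁ := by
  obtain ⟨x, y, hxy⟩ : ∃ x y : ℤ, (q : ℤ) * x - N * y = 1 := by
    have hcop : IsCoprime (q : ℤ) (N : ℤ) :=
      Nat.isCoprime_iff_coprime.2 ((Nat.Prime.coprime_iff_not_dvd hq).2 hqN)
    obtain ⟨a, b, hab⟩ := hcop
    exact ⟨a, -b, by linear_combination hab⟩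
  obtain ⟨ψ, hψ⟩ := exists_W N q hxy hq.ne_zero h
  have hK1 := h.add (hψ.heckeU (N * q) hq hqM)
  obtain ⟨φ₁, hφ₁, hres₁⟩ := hK1.exists_resOne q (claimA N q hxy hq hqN h)
  have hww := isQI_ww N q hxy hq.ne_zero h
  have hK2 := hψ.add (hww.heckeU (N * q) hq hqM)
  obtain ⟨φ₂, hφ₂, hres₂⟩ := hK2.exists_resOne q (claimA N q hxy hq hqN hψ)
  refine ⟨φ₁, φ₂, hφ₁, hφ₂, ?_⟩
  rw [← cohU_q_res₁ N q hq hqN hqM φ₂ hφ₂, hres₂, hres₁, map_add]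
  abel

end AL

theorem latU_sq_sub_mem_oldLat (N q : ℕ) [NeZero N] [NeZero q] (hq : q.Prime) (hqN : ¬ q ∣ N)
    (hqM : q ∣ N * q) (x : Lat (N * q)) :
    latU (N * q) hq hqM (latU (N * q) hq hqM x) - x ∈ oldLat N q := by
  obtain ⟨k', hk'⟩ := exists_isQI (N * q) (x : Additive (Gamma0 (N * q)) →+ ℤ) x.2
  obtain ⟨φ₁, φ₂, h₁, h₂, heq⟩ := AL.main_hom N q hq hqN hqM hk'
  rw [oldLat, Submodule.mem_sup]
  refine ⟨lres₁ N q ((⟨cohT N hq hqN ℤ φ₂, cohT_isParabolicHom N hq hqN φ₂ h₂⟩ : Lat N) - ⟨φ₁, h₁⟩),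
    ⟨_, rfl⟩, lres₂ N q (-(⟨φ₂, h₂⟩ : Lat N)), ⟨_, rfl⟩, ?_⟩
  apply Subtype.ext
  have h3 : ((latU (N * q) hq hqM (latU (N * q) hq hqM x) - x : Lat (N * q)) :
      Additive (Gamma0 (N * q)) →+ ℤ) =
      cohU (N * q) hq hqM ℤ (cohU (N * q) hq hqM ℤ (x : Additive (Gamma0 (N * q)) →+ ℤ)) -
        (x : Additive (Gamma0 (N * q)) →+ ℤ) := rfl
  rw [h3, heq, map_sub, map_neg]
  show res₁ N q ℤ (cohT N hq hqN ℤ φ₂) - res₁ N q ℤ φ₁ + -(res₂ N q ℤ φ₂) = _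
  abel

end Fermat.Agent.S41
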