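import Fermat.Agent.S41.QI.ALReps

/-!
# S41 / H4 : Atkin-Lehner, part 2: the matrix `w = (q x, y; N q, q)`
-/

set_option autoImplicit false
open CongruenceSubgroup Matrix
open scoped MatrixGroups

namespace Fermat.Agent.S41

namespace AL

variable (N q : ℕ) (x y : ℤ)

/-- the Atkin-Lehner matrix. -/
def wMat : Matrix (Fin 2) (Fin 2) ℤ := !![(q : ℤ) * x, y; (N : ℤ) * q, (q : ℤ)]

variable {x y} (hxy : (q : ℤ) * x - N * y = 1)

include hxy in
theorem wMat_det : (wMat N q x y).det = q := by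
  rw [wMat, Matrix.det_fin_two_of]
  linear_combination (q : ℤ) * hxy

/-- the conjugate `w γ w⁻¹` of `γ = (a, b; N q c₀, d)`. -/
def conjMat (a b c₀ d : ℤ) : Matrix (Fin 2) (Fin 2) ℤ :=
  !![q * x * a + y * N * q * c₀ - N * q * x * b - N * y * d,
     -x * a * y - y ^ 2 * N * c₀ + q * x ^ 2 * b + x * y * d;
     N * q * (a + q * c₀ - N * b - d),
     -N * a * y - N * q * c₀ * y + N * q * b * x + q * d * x]

include hxy in
theorem wMat_mul (a b c₀ d : ℤ) :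
    wMat N q x y * !![a, b; (N : ℤ) * q * c₀, d] = conjMat N q (x := x) (y := y) a b c₀ d * wMat N q x y := by
  rw [wMat, conjMat, Matrix.mul_fin_two, Matrix.mul_fin_two]
  congr 1
  ext i j
  fin_cases i <;> fin_cases j
  · show (q : ℤ) * x * a + y * (N * q * c₀) = _
    simp only [Fin.zero_eta, Fin.isValue, cons_val', cons_val_zero, cons_val_fin_one]
    linear_combination (-((q : ℤ) * x * a + q * y * N * c₀)) * hxy
  · show (q : ℤ) * x * b + y * d = _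
    simp only [Fin.zero_eta, Fin.isValue, Fin.mk_one, cons_val', cons_val_one, cons_val_zero,
      cons_val_fin_one]
    linear_combination (-((q : ℤ) * x * b + y * d)) * hxy
  · show (N : ℤ) * q * a + q * (N * q * c₀) = _
    simp only [Fin.zero_eta, Fin.isValue, Fin.mk_one, cons_val', cons_val_one, cons_val_zero,
      cons_val_fin_one]
    linear_combination (-((N : ℤ) * q * (a + q * c₀))) * hxy
  · show (N : ℤ) * q * b + q * d = _
    simp only [Fin.isValue, Fin.mk_one, cons_val', cons_val_one, cons_val_fin_one]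
    linear_combination (-((N : ℤ) * q * b + q * d)) * hxy

include hxy in
/-- `w γ = γ' w` with `γ' ∈ Γ₀(N q)`. -/
theorem exists_conj (hq0 : q ≠ 0) (γ : Gamma0 (N * q)) :
    ∃ γ' : Gamma0 (N * q), wMat N q x y * ((γ : SL(2, ℤ)) : Matrix (Fin 2) (Fin 2) ℤ) =
      ((γ' : SL(2, ℤ)) : Matrix (Fin 2) (Fin 2) ℤ) * wMat N q x y := by
  obtain ⟨c₀, hc₀⟩ := dvd_of_mem_Gamma0 γ
  set A := ((γ : SL(2, ℤ)) : Matrix (Fin 2) (Fin 2) ℤ) with hAdef
  have hA : A = !![A 0 0, A 0 1; (N : ℤ) * q * c₀, A 1 1] := by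
    conv_lhs => rw [Matrix.eta_fin_two A]
    have : A 1 0 = (N : ℤ) * q * c₀ := by rw [hc₀]; push_cast; ring
    rw [this]
  have hmul := wMat_mul N q hxy (A 0 0) (A 0 1) c₀ (A 1 1)
  rw [← hA] at hmul
  have hdet : (conjMat N q (x := x) (y := y) (A 0 0) (A 0 1) c₀ (A 1 1)).det = 1 := by
    have h1 := congrArg Matrix.det hmul
    have hAdet : A.det = 1 := (γ : SL(2, ℤ)).2
    rw [Matrix.det_mul, Matrix.det_mul, wMat_det N q hxy, hAdet, mul_one] at h1
    have hq' : (q : ℤ) ≠ 0 := by exact_mod_cast hq0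
    exact mul_right_cancel₀ hq' (by rw [one_mul]; exact h1.symm)
  refine ⟨⟨⟨_, hdet⟩, ?_⟩, hmul⟩
  refine (mem_Gamma0_iff_dvd _).2 ?_
  show ((N * q : ℕ) : ℤ) ∣ N * q * (A 0 0 + q * c₀ - N * A 0 1 - A 1 1)
  push_cast
  exact Dvd.intro _ rfl

/-- `γ₀ = w² / q`. -/
def gam0 : SL(2, ℤ) :=
  ⟨!![(q : ℤ) * x ^ 2 + N * y, x * y + y; (N : ℤ) * q * (x + 1), N * y + q], by
    rw [Matrix.det_fin_two_of]; linear_combination ((q : ℤ) * x - N * y + 1) * hxy⟩

theorem gam0_mem : gam0 N q hxy ∈ Gamma0 (N * q) := by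
  rw [mem_Gamma0_iff_dvd]
  show ((N * q : ℕ) : ℤ) ∣ (N : ℤ) * q * (x + 1)
  push_cast
  exact Dvd.intro _ rfl

theorem wMat_sq : wMat N q x y * wMat N q x y =
    (q : ℤ) • ((gam0 N q hxy : SL(2, ℤ)) : Matrix (Fin 2) (Fin 2) ℤ) := by
  show _ = (q : ℤ) • !![(q : ℤ) * x ^ 2 + N * y, x * y + y; (N : ℤ) * q * (x + 1), N * y + q]
  rw [wMat, Matrix.mul_fin_two, Matrix.smul_of, Matrix.smul_cons, Matrix.smul_cons]
  congr 1
  ext i j
  fin_cases i <;> fin_cases j <;> simp <;> ring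

theorem wMat_mul_rep (b : ℤ) : wMat N q x y * !![1, b; 0, (q : ℤ)] =
    (q : ℤ) • ((gB N q hxy b : SL(2, ℤ)) : Matrix (Fin 2) (Fin 2) ℤ) := by
  show _ = (q : ℤ) • !![x, x * b + y; (N : ℤ), N * b + q]
  rw [wMat, Matrix.mul_fin_two, Matrix.smul_of, Matrix.smul_cons, Matrix.smul_cons]
  congr 1
  ext i j
  fin_cases i <;> fin_cases j <;> simp <;> ring

/-! ### rational versions -/

theorem zq_smul (c : ℤ) (A : Matrix (Fin 2) (Fin 2) ℤ) : zq (c • A) = (c : ℚ) • zq A := by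
  ext i j
  show (((c • A) i j : ℤ) : ℚ) = (c : ℚ) * ((A i j : ℤ) : ℚ)
  rw [Matrix.smul_apply, smul_eq_mul, Int.cast_mul]

theorem zq_det (A : Matrix (Fin 2) (Fin 2) ℤ) : (zq A).det = ((A.det : ℤ) : ℚ) := by
  simp [zq, Matrix.det_fin_two]

include hxy in
theorem zq_wMat_mulVec_ne_zero (hq0 : q ≠ 0) {v : V2} (hv : v ≠ 0) :
    zq (wMat N q x y) *ᵥ v ≠ 0 := by
  intro h0
  apply hv
  refine Matrix.eq_zero_of_mulVec_eq_zero ?_ h0
  rw [zq_det, wMat_det N q hxy]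
  exact_mod_cast hq0

end AL

end Fermat.Agent.S41
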