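import Fermat.Agent.S41.PD.Prim

/-!
# S41 / H4 : Atkin-Lehner, part 1: sums of a cusp primitive over coset representatives; matrices
-/

set_option autoImplicit false
open CongruenceSubgroup Matrix
open scoped MatrixGroups

namespace Fermat.Agent.S41

namespace AL

/-- a sum of translates of a primitive over a system of representatives of `Γ' \ Γ` is
quasi-invariant under `Γ`. -/
theorem qi_of_reps {R : Type*} [AddCommGroup R] {Γ' : Subgroup SL(2, ℤ)}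
    {φ' : Additive Γ' →+ R} {k' : V2 → R} (h : IsQI Γ' φ' k')
    {ι : Type*} [Fintype ι] (G : ι → SL(2, ℤ)) (γ : SL(2, ℤ))
    (hex : ∀ j, ∃ j', G j * γ * (G j')⁻¹ ∈ Γ')
    (huniq : ∀ j j', G j * (G j')⁻¹ ∈ Γ' → j = j') :
    ∃ c : R, ∀ v : V2, v ≠ 0 →
      ∑ j, k' (sl (G j) *ᵥ (sl γ *ᵥ v)) = ∑ j, k' (sl (G j) *ᵥ v) + c := by
  choose σ hσ using hex
  have hinj : Function.Injective σ := by
    intro j j₂ hj
    apply huniq
    have h1 := hσ j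
    have h2 := hσ j₂
    rw [← hj] at h2
    have h3 := Γ'.mul_mem h1 (Γ'.inv_mem h2)
    have h4 : G j * γ * (G (σ j))⁻¹ * (G j₂ * γ * (G (σ j))⁻¹)⁻¹ = G j * (G j₂)⁻¹ := by group
    rwa [h4] at h3
  have hbij : Function.Bijective σ := Finite.injective_iff_bijective.1 hinj
  refine ⟨∑ j, φ' (Additive.ofMul ⟨_, hσ j⟩), fun v hv => ?_⟩
  rw [← hbij.sum_comp (fun j => k' (sl (G j) *ᵥ v)), ← Finset.sum_add_distrib]
  refine Finset.sum_congr rfl fun j _ => ?_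
  have h1 := h.qi ⟨_, hσ j⟩ (sl (G (σ j)) *ᵥ v) (Prim.sl_mulVec_ne_zero _ hv)
  rw [← h1]
  show k' (sl (G j) *ᵥ sl γ *ᵥ v) = k' (sl (G j * γ * (G (σ j))⁻¹) *ᵥ sl (G (σ j)) *ᵥ v)
  rw [Matrix.mulVec_mulVec, Matrix.mulVec_mulVec, ← Prim.sl_mul, ← Prim.sl_mul,
    inv_mul_cancel_right]

theorem mul_inv_one_zero (h g : SL(2, ℤ)) :
    (h * g⁻¹) 1 0 = h 1 0 * g 1 1 - h 1 1 * g 1 0 := by
  rw [Matrix.SpecialLinearGroup.coe_mul, Matrix.SpecialLinearGroup.coe_inv,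
    Matrix.adjugate_fin_two, Matrix.mul_apply, Fin.sum_univ_two]
  simp
  ring

theorem mem_Gamma0_iff_dvd {M : ℕ} (g : SL(2, ℤ)) : g ∈ Gamma0 M ↔ (M : ℤ) ∣ g 1 0 := by
  rw [Gamma0_mem, ZMod.intCast_zmod_eq_zero_iff_dvd]

/-! ### the representatives of `Γ₀(N q) \ Γ₀(N)` -/

section reps

variable (N q : ℕ) {x y : ℤ} (hxy : (q : ℤ) * x - N * y = 1)

/-- `g_b = (x, x b + y; N, N b + q)`. -/
def gB (b : ℤ) : SL(2, ℤ) :=
  ⟨!![x, x * b + y; (N : ℤ), N * b + q], by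
    rw [Matrix.det_fin_two_of]; linear_combination hxy⟩

/-- the representatives `1`, `g_b` (`b < q`). -/
def reps : Option (Fin q) → SL(2, ℤ)
  | none => 1
  | some b => gB N q hxy (b : ℕ)

theorem gB_one_zero (b : ℤ) : (gB N q hxy b) 1 0 = N := rfl

theorem gB_one_one (b : ℤ) : (gB N q hxy b) 1 1 = N * b + q := rfl

theorem reps_mem (j : Option (Fin q)) : reps N q hxy j ∈ Gamma0 N := by
  cases j with
  | none => exact one_mem _
  | some b => rw [mem_Gamma0_iff_dvd]; exact dvd_refl _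

theorem mem_Gamma0_mul_iff (hq : q.Prime) (hqN : ¬ q ∣ N) (g : SL(2, ℤ)) :
    g ∈ Gamma0 (N * q) ↔ (N : ℤ) ∣ g 1 0 ∧ (q : ℤ) ∣ g 1 0 := by
  rw [mem_Gamma0_iff_dvd]
  push_cast
  constructor
  · intro h
    exact ⟨(Dvd.intro _ rfl).trans h, (Dvd.intro_left _ rfl).trans h⟩
  · rintro ⟨h1, h2⟩
    have hcop : IsCoprime (N : ℤ) (q : ℤ) :=
      Nat.isCoprime_iff_coprime.2 ((Nat.Prime.coprime_iff_not_dvd hq).2 hqN).symm
    exact hcop.mul_dvd h1 h2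

theorem reps_exists (hq : q.Prime) (hqN : ¬ q ∣ N) (h : SL(2, ℤ)) (hh : h ∈ Gamma0 N) :
    ∃ j, h * (reps N q hxy j)⁻¹ ∈ Gamma0 (N * q) := by
  haveI : Fact q.Prime := ⟨hq⟩
  have hN : (N : ℤ) ∣ h 1 0 := (mem_Gamma0_iff_dvd h).1 hh
  by_cases hc : (q : ℤ) ∣ h 1 0
  · refine ⟨none, ?_⟩
    rw [mem_Gamma0_mul_iff N q hq hqN]
    simpa [reps] using And.intro hN hc
  · have hc' : ((h 1 0 : ℤ) : ZMod q) ≠ 0 := by
      rwa [Ne, ZMod.intCast_zmod_eq_zero_iff_dvd]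
    set b : ZMod q := ((h 1 1 : ℤ) : ZMod q) * ((h 1 0 : ℤ) : ZMod q)⁻¹ with hb
    have hdvd : (q : ℤ) ∣ h 1 0 * (b.val : ℤ) - h 1 1 := by
      rw [← ZMod.intCast_zmod_eq_zero_iff_dvd]
      push_cast
      rw [ZMod.natCast_zmod_val, hb, mul_comm, mul_assoc, inv_mul_cancel₀ hc', mul_one, sub_self]
    refine ⟨some ⟨b.val, ZMod.val_lt b⟩, ?_⟩
    rw [mem_Gamma0_mul_iff N q hq hqN, mul_inv_one_zero]
    show (N : ℤ) ∣ h 1 0 * (N * (b.val : ℤ) + q) - h 1 1 * N ∧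
      (q : ℤ) ∣ h 1 0 * (N * (b.val : ℤ) + q) - h 1 1 * N
    constructor
    · exact dvd_sub (Dvd.dvd.mul_right hN _) (Dvd.intro_left _ rfl)
    · have : h 1 0 * (N * (b.val : ℤ) + q) - h 1 1 * N
          = N * (h 1 0 * (b.val : ℤ) - h 1 1) + q * h 1 0 := by ring
      rw [this]
      exact dvd_add (Dvd.dvd.mul_left hdvd _) (Dvd.intro _ rfl)

theorem reps_unique (hq : q.Prime) (hqN : ¬ q ∣ N) (j j' : Option (Fin q))
    (h : reps N q hxy j * (reps N q hxy j')⁻¹ ∈ Gamma0 (N * q)) : j = j' := by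
  have hqN' : ¬ (q : ℤ) ∣ (N : ℤ) := by rwa [Int.natCast_dvd_natCast]
  have hq' : Prime (q : ℤ) := Nat.prime_iff_prime_int.1 hq
  have h1 := ((mem_Gamma0_mul_iff N q hq hqN _).1 h).2
  rw [mul_inv_one_zero] at h1
  cases j with
  | none =>
    cases j' with
    | none => rfl
    | some b' =>
      exfalso
      have h2 : (q : ℤ) ∣ (0 : ℤ) * (N * ((b' : ℕ) : ℤ) + q) - 1 * N := h1
      apply hqN'
      simpa using h2
  | some b =>
    cases j' with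
    | none =>
      exfalso
      have h2 : (q : ℤ) ∣ (N : ℤ) * 1 - (N * ((b : ℕ) : ℤ) + q) * 0 := h1
      apply hqN'
      simpa using h2
    | some b' =>
      have h2 : (q : ℤ) ∣ (N : ℤ) * (N * ((b' : ℕ) : ℤ) + q) - (N * ((b : ℕ) : ℤ) + q) * N := h1
      have h3 : (N : ℤ) * (N * ((b' : ℕ) : ℤ) + q) - (N * ((b : ℕ) : ℤ) + q) * N
          = N * (N * (((b' : ℕ) : ℤ) - ((b : ℕ) : ℤ))) := by ring
      rw [h3] at h2
      have h4 : (q : ℤ) ∣ ((b' : ℕ) : ℤ) - ((b : ℕ) : ℤ) :=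
        ((hq'.dvd_or_dvd h2).resolve_left hqN' |> hq'.dvd_or_dvd).resolve_left hqN'
      have h5 : |((b' : ℕ) : ℤ) - ((b : ℕ) : ℤ)| < q :=
        abs_sub_lt_of_nonneg_of_lt (Int.natCast_nonneg _) (by exact_mod_cast b'.2)
          (Int.natCast_nonneg _) (by exact_mod_cast b.2)
      have h6 := Int.eq_zero_of_abs_lt_dvd h4 h5
      congr 1
      apply Fin.ext
      have : ((b' : ℕ) : ℤ) = ((b : ℕ) : ℤ) := sub_eq_zero.1 h6
      exact_mod_cast this.symm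

end reps

end AL

end Fermat.Agent.S41
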