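import Fermat.Agent.S41.Deg
import Fermat.Agent.S41.PD.Prim
import Fermat.Agent.GAL.HK.Iota
import Fermat.Agent.GAL.HK.Bridge

/-!
# S41 / H3 (core) : identities between cusp primitives behind
"degeneracy maps commute with Hecke operators" and "`U_q` on `q`-old forms"
-/

set_option autoImplicit false
open CongruenceSubgroup Matrix ModularCurve.Period
open scoped MatrixGroups TensorProduct
open Fermat.Agent.GAL Fermat.Agent.GAL.HK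

namespace Fermat.Agent.S41

/-! ### explicit formulas -/

theorem Deg_rep_none (ℓ : ℕ) (v : V2) : zq (heckeRep ℓ none) *ᵥ v = ![(ℓ : ℚ) * v 0, v 1] := by
  ext i; fin_cases i <;> simp [zq, heckeRep, Matrix.mulVec, dotProduct, Fin.sum_univ_two]

theorem Deg_rep_some (ℓ : ℕ) (b : Fin ℓ) (v : V2) :
    zq (heckeRep ℓ (some b)) *ᵥ v = ![v 0 + ((b : ℕ) : ℚ) * v 1, (ℓ : ℚ) * v 1] := by
  ext i; fin_cases i <;> simp [zq, heckeRep, Matrix.mulVec, dotProduct, Fin.sum_univ_two]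

theorem Deg_dl (q : ℕ) (v : V2) : dl q *ᵥ v = ![(q : ℚ) * v 0, v 1] := by
  ext i; fin_cases i <;> simp [dl, Matrix.mulVec, dotProduct, Fin.sum_univ_two]

/-- the translation `τ ^ m` as an element of `Γ₀(N)` -/
def Deg_tauSL (m : ℤ) : SL(2, ℤ) := ⟨!![1, m; 0, 1], by simp [Matrix.det_fin_two]⟩

/-- the translation `τ ^ m` as an element of `Γ₀(N)` -/
def Deg_tau (N : ℕ) (m : ℤ) : Gamma0 N :=
  ⟨Deg_tauSL m, by rw [Gamma0_mem]; simp [Deg_tauSL]⟩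

theorem Deg_sl_tau (N : ℕ) (m : ℤ) (v : V2) :
    sl ((Deg_tau N m : Gamma0 N) : SL(2, ℤ)) *ᵥ v = ![v 0 + (m : ℚ) * v 1, v 1] := by
  ext i; fin_cases i <;> simp [sl, zq, Deg_tau, Deg_tauSL, Matrix.mulVec, dotProduct, Fin.sum_univ_two]

section
variable {R : Type*} [AddCommGroup R] {N : ℕ} {φ : Additive (Gamma0 N) →+ R} {k : V2 → R}

/-- a cusp primitive of a parabolic hom is invariant under translations -/
theorem Deg_k_tau (h : IsQI (Gamma0 N) φ k) (m : ℤ) (w : V2) :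
    k ![w 0 + (m : ℚ) * w 1, w 1] = k w := by
  by_cases hw : w = 0
  · subst hw
    congr 1
    ext i; fin_cases i <;> simp
  · have h1 := h.qi (Deg_tau N m) w hw
    rw [Deg_sl_tau] at h1
    rw [h1, h.isParabolicHom (Deg_tau N m) (by simp [Deg_tau, Deg_tauSL, Matrix.trace_fin_two]),
      add_zero]

theorem Deg_resOne (q : ℕ) (h : IsQI (Gamma0 N) φ k) : IsQI (Gamma0 (N * q)) (res₁ N q R φ) k :=
  h.mono (Gamma0_mul_le N q)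

theorem Deg_sl_dconj (q : ℕ) [NeZero q] (γ : Gamma0 (N * q)) (v : V2) :
    dl q *ᵥ (sl (γ : SL(2, ℤ)) *ᵥ v) = sl ((dconj N q γ : Gamma0 N) : SL(2, ℤ)) *ᵥ (dl q *ᵥ v) := by
  obtain ⟨c, hc⟩ := q_dvd_of_mem N q γ
  have hq' : (q : ℤ) ≠ 0 := by exact_mod_cast NeZero.ne q
  have h10 : ((dconj N q γ : Gamma0 N) : SL(2, ℤ)) 1 0 = c := by
    show dconjMat q ((γ : SL(2, ℤ)) : Matrix (Fin 2) (Fin 2) ℤ) 1 0 = c
    simp only [dconjMat, of_apply, cons_val', cons_val_zero, cons_val_fin_one, cons_val_one, hc,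
      Int.mul_ediv_cancel_left _ hq']
  have h00 : ((dconj N q γ : Gamma0 N) : SL(2, ℤ)) 0 0 = (γ : SL(2, ℤ)) 0 0 := rfl
  have h01 : ((dconj N q γ : Gamma0 N) : SL(2, ℤ)) 0 1 = q * (γ : SL(2, ℤ)) 0 1 := rfl
  have h11 : ((dconj N q γ : Gamma0 N) : SL(2, ℤ)) 1 1 = (γ : SL(2, ℤ)) 1 1 := rfl
  rw [Deg_dl, Deg_dl]
  ext i; fin_cases i
  · simp only [Prim.sl_mulVec_apply]
    simp
    rw [h00, h01]
    push_cast
    ring
  · simp only [Prim.sl_mulVec_apply]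
    simp
    rw [h10, h11, hc]
    push_cast
    ring

theorem Deg_dl_ne_zero (q : ℕ) [NeZero q] {v : V2} (hv : v ≠ 0) : dl q *ᵥ v ≠ 0 := by
  intro h
  apply hv
  rw [Deg_dl] at h
  have hq : (q : ℚ) ≠ 0 := by exact_mod_cast NeZero.ne q
  ext i; fin_cases i
  · have := congrFun h 0
    simpa [hq] using this
  · have := congrFun h 1
    simpa using this

theorem Deg_resTwo (q : ℕ) [NeZero q] (h : IsQI (Gamma0 N) φ k) :
    IsQI (Gamma0 (N * q)) (res₂ N q R φ) (fun v => k (dl q *ᵥ v)) := by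
  refine ⟨fun c v hc => ?_, fun γ v hv => ?_⟩
  · show k (dl q *ᵥ (c • v)) = k (dl q *ᵥ v)
    rw [Matrix.mulVec_smul, h.homog c _ hc]
  · show k (dl q *ᵥ (sl (γ : SL(2, ℤ)) *ᵥ v)) = k (dl q *ᵥ v) + _
    rw [Deg_sl_dconj, h.qi _ _ (Deg_dl_ne_zero q hv), res₂_apply]

/-! ### the identities between primitives -/

theorem Deg_step (h : IsQI (Gamma0 N) φ k) (q ℓ : ℕ) (hℓ : 0 < ℓ) (b : Fin ℓ) (v : V2) :
    k (dl q *ᵥ (zq (heckeRep ℓ (some b)) *ᵥ v)) =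
      k (zq (heckeRep ℓ (some ⟨(q * b) % ℓ, Nat.mod_lt _ hℓ⟩)) *ᵥ (dl q *ᵥ v)) := by
  obtain ⟨m, hm⟩ : ∃ m : ℕ, q * b = q * b % ℓ + ℓ * m := ⟨_, (Nat.mod_add_div _ _).symm⟩
  rw [← Deg_k_tau h (m : ℤ)
    (zq (heckeRep ℓ (some ⟨(q * b) % ℓ, Nat.mod_lt _ hℓ⟩)) *ᵥ (dl q *ᵥ v))]
  congr 1
  rw [Deg_rep_some, Deg_rep_some, Deg_dl, Deg_dl]
  have key : ((q : ℚ) * ((b : ℕ) : ℚ)) = ((q * b % ℓ : ℕ) : ℚ) + (ℓ : ℚ) * (m : ℚ) := by
    exact_mod_cast hm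
  ext i; fin_cases i
  · simp
    linear_combination (v 1) * key
  · simp

theorem Deg_perm_bijective {q ℓ : ℕ} (hℓ : 0 < ℓ) (hc : Nat.Coprime ℓ q) :
    Function.Bijective (fun b : Fin ℓ => (⟨(q * b) % ℓ, Nat.mod_lt _ hℓ⟩ : Fin ℓ)) := by
  rw [← Finite.injective_iff_bijective]
  intro b b' hbb
  have h1 : q * b ≡ q * b' [MOD ℓ] := congrArg Fin.val hbb
  have h2 : (b : ℕ) ≡ b' [MOD ℓ] := Nat.ModEq.cancel_left_of_coprime hc h1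
  have h3 : (b : ℕ) % ℓ = b' % ℓ := h2
  rw [Nat.mod_eq_of_lt b.2, Nat.mod_eq_of_lt b'.2] at h3
  exact Fin.ext h3

/-- `∑_b k ∘ δ α_b = ∑_b k ∘ α_b δ` -/
theorem Deg_sum_some (h : IsQI (Gamma0 N) φ k) {q ℓ : ℕ} (hℓ : 0 < ℓ) (hc : Nat.Coprime ℓ q)
    (v : V2) :
    ∑ b : Fin ℓ, k (dl q *ᵥ (zq (heckeRep ℓ (some b)) *ᵥ v)) =
      ∑ b : Fin ℓ, k (zq (heckeRep ℓ (some b)) *ᵥ (dl q *ᵥ v)) := by
  rw [← (Deg_perm_bijective hℓ hc).sum_comp fun b => k (zq (heckeRep ℓ (some b)) *ᵥ (dl q *ᵥ v))]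
  exact Finset.sum_congr rfl fun b _ => Deg_step h q ℓ hℓ b v

theorem Deg_none (q ℓ : ℕ) (v : V2) :
    dl q *ᵥ (zq (heckeRep ℓ none) *ᵥ v) = zq (heckeRep ℓ none) *ᵥ (dl q *ᵥ v) := by
  rw [Deg_rep_none, Deg_rep_none, Deg_dl, Deg_dl]
  ext i; fin_cases i
  · simp
    ring
  · simp

/-- `∑_i k ∘ δ α_i = ∑_i k ∘ α_i δ` -/
theorem Deg_sum_option (h : IsQI (Gamma0 N) φ k) {q ℓ : ℕ} (hℓ : 0 < ℓ) (hc : Nat.Coprime ℓ q)
    (v : V2) :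
    ∑ i : Option (Fin ℓ), k (dl q *ᵥ (zq (heckeRep ℓ i) *ᵥ v)) =
      ∑ i : Option (Fin ℓ), k (zq (heckeRep ℓ i) *ᵥ (dl q *ᵥ v)) := by
  rw [Fintype.sum_option, Fintype.sum_option, Deg_sum_some h hℓ hc, Deg_none]

theorem Deg_rep_none_eq_dl (q : ℕ) : zq (heckeRep q none) = dl q := by
  ext i j; fin_cases i <;> fin_cases j <;> simp [zq, heckeRep, dl]

/-- `∑_b k ∘ α_b = ∑_i k ∘ α_i - k ∘ δ` -/
theorem Deg_sum_q_one (k : V2 → R) (q : ℕ) (v : V2) :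
    ∑ b : Fin q, k (zq (heckeRep q (some b)) *ᵥ v) =
      (∑ i : Option (Fin q), k (zq (heckeRep q i) *ᵥ v)) - k (dl q *ᵥ v) := by
  rw [Fintype.sum_option, Deg_rep_none_eq_dl]
  abel

/-- `∑_b k ∘ δ α_b = q k` -/
theorem Deg_sum_q_two (h : IsQI (Gamma0 N) φ k) (q : ℕ) [NeZero q] (v : V2) :
    ∑ b : Fin q, k (dl q *ᵥ (zq (heckeRep q (some b)) *ᵥ v)) = q • k v := by
  have hq : (q : ℚ) ≠ 0 := by exact_mod_cast NeZero.ne q
  have h1 : ∀ b : Fin q, k (dl q *ᵥ (zq (heckeRep q (some b)) *ᵥ v)) = k v := by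
    intro b
    rw [← Deg_k_tau h ((b : ℕ) : ℤ) v,
      ← h.homog (q : ℚ) ![v 0 + (((b : ℕ) : ℤ) : ℚ) * v 1, v 1] hq]
    congr 1
    rw [Deg_rep_some, Deg_dl]
    ext i; fin_cases i <;> simp
  rw [Finset.sum_congr rfl fun b _ => h1 b, Finset.sum_const, Finset.card_univ, Fintype.card_fin]

end

end Fermat.Agent.S41
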